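import Fermat.Agent.S49.Basic

set_option autoImplicit false

namespace Fermat.Agent.S49

open CuspForm EisensteinWeightOne CongruenceSubgroup ModularFormClass
open Fermat.Agent.Lib.QCoeff

variable {N : ℕ} [NeZero N]

/-- annihilator of `f₀` modulo three. -/
noncomputable def eigIdeal (f₀ : CuspForm (Gamma0 N) 2) : Ideal (heckeAlgebra N 2 ∅) where
  carrier := {t | t.1 f₀ ∈ threeLattice N}
  zero_mem' := by
    show (0 : Module.End ℂ (CuspForm (Gamma0 N) 2)) f₀ ∈ threeLattice N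
    simp
  add_mem' := by
    intro x y hx hy
    show (x.1 + y.1) f₀ ∈ threeLattice N
    rw [LinearMap.add_apply]
    exact (threeLattice N).add_mem hx hy
  smul_mem' := by
    intro s t ht
    show (s.1 * t.1) f₀ ∈ threeLattice N
    rw [Module.End.mul_apply]
    exact apply_mem_threeLattice s.2 ht

theorem mem_eigIdeal {f₀ : CuspForm (Gamma0 N) 2} {t : heckeAlgebra N 2 ∅} :
    t ∈ eigIdeal f₀ ↔ t.1 f₀ ∈ threeLattice N := Iff.rfl

theorem chi_congr (ℓ : ℕ) : (3 : ℤ) ∣ (ℓ : ℤ) - chiNegThree ℓ := by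
  unfold chiNegThree
  have h := Nat.mod_lt ℓ (show 0 < 3 by norm_num)
  have h2 : (ℓ : ℤ) = 3 * ((ℓ / 3 : ℕ) : ℤ) + ((ℓ % 3 : ℕ) : ℤ) := by
    exact_mod_cast (Nat.div_add_mod ℓ 3).symm
  generalize ℓ % 3 = r at *
  generalize ((ℓ / 3 : ℕ) : ℤ) = q at *
  interval_cases r <;> simp <;> omega

variable {a : ℕ → ℤ} {f₀ : CuspForm (Gamma0 N) 2} {af : ℕ → ℤ}

theorem heckeT_sub_mem
    (heig : FormalHecke.IsEigensystem
      (fun ℓ => if ℓ ∣ N then 0 else ((chiNegThree ℓ : ℤ) : ℤ)) a)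
    (haf : ∀ n, (af n : ℂ) = qCoeff f₀ n) (hcong : ∀ n, (3 : ℤ) ∣ af n - a n)
    {ℓ : ℕ} (hℓ : ℓ.Prime) (hℓN : ¬ ℓ ∣ N) :
    heckeTLin 2 hℓ hℓN f₀ - (a ℓ : ℂ) • f₀ ∈ threeLattice N := by
  intro n
  have hsub := (coeffLin N 2 n).map_sub (heckeTLin 2 hℓ hℓN f₀) ((a ℓ : ℂ) • f₀)
  simp only [coeffLin_apply] at hsub
  rw [hsub, qCoeff_heckeTLin, qCoeff_smul, ← haf (n * ℓ), ← haf n]
  have hrel := heig.2 ℓ hℓ n
  simp only [if_neg hℓN] at hrel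
  obtain ⟨x1, hx1⟩ := hcong (n * ℓ)
  obtain ⟨x2, hx2⟩ := hcong n
  obtain ⟨x3, hx3⟩ := hcong (n / ℓ)
  obtain ⟨x4, hx4⟩ := chi_congr ℓ
  rw [mul_comm ℓ n] at hrel
  by_cases hd : ℓ ∣ n
  · rw [if_pos hd] at hrel ⊢
    rw [← haf]
    refine ⟨x1 + ℓ * x3 + x4 * a (n / ℓ) - a ℓ * x2, ?_⟩
    have key : af (n * ℓ) + ℓ * af (n / ℓ) - a ℓ * af n
        = 3 * (x1 + ℓ * x3 + x4 * a (n / ℓ) - a ℓ * x2) := by
      linear_combination hx1 + (ℓ : ℤ) * hx3 + a (n / ℓ) * hx4 - a ℓ * hx2 + hrel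
    have := congrArg (Int.cast : ℤ → ℂ) key
    push_cast at this ⊢
    rw [← this]
    norm_num
  · rw [if_neg hd] at hrel ⊢
    refine ⟨x1 - a ℓ * x2, ?_⟩
    have key : af (n * ℓ) - a ℓ * af n = 3 * (x1 - a ℓ * x2) := by
      linear_combination hx1 - a ℓ * hx2 + hrel
    have := congrArg (Int.cast : ℤ → ℂ) key
    push_cast at this ⊢
    rw [← this]
    ring

theorem heckeU_sub_mem
    (heig : FormalHecke.IsEigensystem
      (fun ℓ => if ℓ ∣ N then 0 else ((chiNegThree ℓ : ℤ) : ℤ)) a)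
    (haf : ∀ n, (af n : ℂ) = qCoeff f₀ n) (hcong : ∀ n, (3 : ℤ) ∣ af n - a n)
    {ℓ : ℕ} (hℓ : ℓ.Prime) (hℓN : ℓ ∣ N) :
    heckeULin 2 hℓN f₀ - (a ℓ : ℂ) • f₀ ∈ threeLattice N := by
  intro n
  have hsub := (coeffLin N 2 n).map_sub (heckeULin 2 hℓN f₀) ((a ℓ : ℂ) • f₀)
  simp only [coeffLin_apply] at hsub
  rw [hsub, qCoeff_heckeULin, qCoeff_smul, ← haf, ← haf]
  have hrel := heig.2 ℓ hℓ n
  simp only [if_pos hℓN, zero_mul, add_zero] at hrel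
  obtain ⟨x1, hx1⟩ := hcong (n * ℓ)
  obtain ⟨x2, hx2⟩ := hcong n
  rw [mul_comm ℓ n] at hrel
  refine ⟨x1 - a ℓ * x2, ?_⟩
  have key : af (n * ℓ) - a ℓ * af n = 3 * (x1 - a ℓ * x2) := by
    linear_combination hx1 - a ℓ * hx2 + hrel
  have := congrArg (Int.cast : ℤ → ℂ) key
  push_cast at this ⊢
  rw [← this]

theorem exists_int_sub_mem
    (heig : FormalHecke.IsEigensystem
      (fun ℓ => if ℓ ∣ N then 0 else ((chiNegThree ℓ : ℤ) : ℤ)) a)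
    (haf : ∀ n, (af n : ℂ) = qCoeff f₀ n) (hcong : ∀ n, (3 : ℤ) ∣ af n - a n)
    {t : Module.End ℂ (CuspForm (Gamma0 N) 2)} (ht : t ∈ heckeAlgebra N 2 ∅) :
    ∃ c : ℤ, t f₀ - (c : ℂ) • f₀ ∈ threeLattice N := by
  unfold heckeAlgebra at ht
  induction ht using Algebra.adjoin_induction with
  | mem x hx =>
    rcases hx with ⟨ℓ, hℓ, hℓN, -, rfl⟩ | ⟨q, hqN, hq, -, rfl⟩
    · exact ⟨a ℓ, heckeT_sub_mem heig haf hcong hℓ hℓN⟩
    · exact ⟨a q, heckeU_sub_mem heig haf hcong hq hqN⟩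
  | algebraMap r =>
    refine ⟨r, ?_⟩
    have : (algebraMap ℤ (Module.End ℂ (CuspForm (Gamma0 N) 2)) r) f₀ = (r : ℂ) • f₀ := by
      rw [Algebra.algebraMap_eq_smul_one, LinearMap.smul_apply, Module.End.one_apply,
        Int.cast_smul_eq_zsmul]
    rw [this, sub_self]
    exact (threeLattice N).zero_mem
  | add x y _ _ hx hy =>
    obtain ⟨c, hc⟩ := hx
    obtain ⟨d, hd⟩ := hy
    refine ⟨c + d, ?_⟩
    have : (x + y) f₀ - ((c + d : ℤ) : ℂ) • f₀ = (x f₀ - (c : ℂ) • f₀) + (y f₀ - (d : ℂ) • f₀) := by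
      rw [LinearMap.add_apply]; push_cast; rw [add_smul]; abel
    rw [this]
    exact (threeLattice N).add_mem hc hd
  | mul x y hxm _ hx hy =>
    obtain ⟨c, hc⟩ := hx
    obtain ⟨d, hd⟩ := hy
    refine ⟨c * d, ?_⟩
    have : (x * y) f₀ - ((c * d : ℤ) : ℂ) • f₀
        = x (y f₀ - (d : ℂ) • f₀) + (d : ℂ) • (x f₀ - (c : ℂ) • f₀) := by
      rw [Module.End.mul_apply, map_sub, map_smul, smul_sub, smul_smul]
      push_cast
      rw [mul_comm (d : ℂ) (c : ℂ)]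
      abel
    rw [this]
    exact (threeLattice N).add_mem (apply_mem_threeLattice (S := ∅) hxm hd)
      (smul_mem_threeLattice d hc)

end Fermat.Agent.S49
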