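import Fermat.Statements.S49
import Fermat.Prelude.Def_CuspForm_HeckeLocal
import Fermat.Agent.Lib.QCoeff
import Fermat.Agent.Lib.FormalHecke
import Fermat.Agent.Lib.Eigen

set_option autoImplicit false

namespace Fermat.Agent.S49

open CuspForm EisensteinWeightOne CongruenceSubgroup ModularFormClass
open Fermat.Agent.Lib.QCoeff

variable {N : ℕ} [NeZero N]

theorem hasIntegralStructure (h : CuspForm.HasIntegralBasis N) :
    CuspForm.HasIntegralStructure N 2 := by
  unfold HasIntegralStructure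
  rw [eq_top_iff, ← h]
  apply Submodule.span_mono
  intro f hf
  rw [SetLike.mem_coe, mem_intLattice_iff]
  intro n
  obtain ⟨m, hm⟩ := Subring.mem_bot.mp (hf n)
  exact ⟨m, hm.symm⟩

theorem finiteDimensional (h : CuspForm.HasIntegralStructure N 2) :
    FiniteDimensional ℂ (CuspForm (Gamma0 N) 2) := by
  obtain ⟨s, hs⟩ := intLattice_fg N 2
  refine ⟨⟨s, ?_⟩⟩
  rw [eq_top_iff, ← h, Submodule.span_le, ← hs]
  exact Submodule.span_subset_span ℤ ℂ _

theorem moduleFinite (h : CuspForm.HasIntegralStructure N 2) (S : Set ℕ) :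
    Module.Finite ℤ (heckeAlgebra N 2 S) := by
  have e := AlgEquiv.ofBijective (latticeRestrictHom N S) (latticeRestrictHom_bijective N S h)
  exact Module.Finite.equiv e.symm.toLinearEquiv

theorem bridge_congr (a : ℕ → ℤ) (n : ℕ) : (3 : ℤ) ∣ (bridgeProduct a).coeff n - a n := by
  have h1 : e1Chi3In ℤ = 1 + PowerSeries.C (3 : ℤ) *
      PowerSeries.mk (fun n => if n = 0 then 0 else 2 * sigmaChi n) := by
    ext j
    simp only [e1Chi3In, e1Chi3, PowerSeries.coeff_map, PowerSeries.coeff_mk, map_add,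
      PowerSeries.coeff_one, PowerSeries.coeff_C_mul]
    split_ifs <;> simp <;> ring
  unfold bridgeProduct
  rw [h1, mul_add, mul_one, map_add, PowerSeries.coeff_mk, mul_left_comm,
    PowerSeries.coeff_C_mul]
  simp

/-- forms all of whose coefficients are integers divisible by three. -/
noncomputable def threeLattice (N : ℕ) : AddSubgroup (CuspForm (Gamma0 N) 2) where
  carrier := {g | ∀ n, ∃ m : ℤ, qCoeff g n = 3 * (m : ℂ)}
  zero_mem' := fun n => ⟨0, by simpa using (coeffLin N 2 n).map_zero⟩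
  add_mem' := by
    intro x y hx hy n
    obtain ⟨a, ha⟩ := hx n
    obtain ⟨b, hb⟩ := hy n
    exact ⟨a + b, by rw [qCoeff_add, ha, hb]; push_cast; ring⟩
  neg_mem' := by
    intro x hx n
    obtain ⟨a, ha⟩ := hx n
    refine ⟨-a, ?_⟩
    have := (coeffLin N 2 n).map_neg x
    simp only [coeffLin_apply] at this
    rw [this, ha]; push_cast; ring

theorem mem_threeLattice {g : CuspForm (Gamma0 N) 2} :
    g ∈ threeLattice N ↔ ∀ n, ∃ m : ℤ, qCoeff g n = 3 * (m : ℂ) := Iff.rfl

theorem smul_mem_threeLattice (c : ℤ) {g : CuspForm (Gamma0 N) 2} (hg : g ∈ threeLattice N) :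
    (c : ℂ) • g ∈ threeLattice N := by
  intro n
  obtain ⟨a, ha⟩ := hg n
  exact ⟨c * a, by rw [qCoeff_smul, ha]; push_cast; ring⟩

theorem apply_mem_threeLattice {S : Set ℕ} {s : Module.End ℂ (CuspForm (Gamma0 N) 2)}
    (hs : s ∈ heckeAlgebra N 2 S)
    {g : CuspForm (Gamma0 N) 2} (hg : g ∈ threeLattice N) : s g ∈ threeLattice N := by
  set g' : CuspForm (Gamma0 N) 2 := (3⁻¹ : ℂ) • g with hg'
  have h1 : g' ∈ intLattice N 2 := by
    rw [mem_intLattice_iff]
    intro n
    obtain ⟨a, ha⟩ := hg n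
    exact ⟨a, by rw [hg', qCoeff_smul, ha]; field_simp⟩
  have h2 := mem_intLattice_of_mem_heckeAlgebra one_le_two hs h1
  rw [mem_intLattice_iff] at h2
  have h3 : g = (3 : ℂ) • g' := by
    rw [hg', smul_smul]; norm_num
  intro n
  obtain ⟨b, hb⟩ := h2 n
  exact ⟨b, by rw [h3, map_smul, qCoeff_smul, hb]⟩

end Fermat.Agent.S49
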